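import Fermat.Agent.LT.A2.H254.IntSpec

/-!
# Row LT, tower A2, sub-leaf A2.03.8.5.10 `H254.IntegrableC254` (helper826), OFF-MAIN

`integrableC254_826 : Fermat.Agent.LT.A2.H254.IntegrableC254`, VERBATIM against
`LT/A2/H254/IntSpec.lean` (helper254, sha256 `e654c419…`).

Route:
* the torus `T(𝔸_K)` is the commutant of `Π = torMat t n 0 1` in `GL₂(𝔸_K)` (`inTorus_iff826`),
  hence a commutative subgroup;
* `torA` with `μ' = (μ̄ʲ)⁻¹`: `F g' (m m') (μ̄ʲ e₁) = c · F (d g') (m (μ' m')) e₁`,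
  `c = |det μ'|^{1/2}`, `d = diag(1, det μ')`;
* `orb_dom` at the one-point compact set `{(d g', μ' m')}` dominates the right side on `T¹`;
  `|χT| = 1` on the torus (`fin_order`);
* measurability: `T¹` is closed (`T2Space (𝔸_K)` from `T1.LocCompC`), the integrand is continuous
  on `T¹` (`cont_pair`, `IsTorusChar.cont`).
-/

set_option autoImplicit false
set_option linter.style.haveILetI false

open IsDedekindDomain NumberField AutomorphicForm MeasureTheory
open scoped MatrixGroups

noncomputable section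

namespace Fermat.Agent.LT.A2.H826

open Fermat.Agent.LT.H556 Fermat.Agent.LT.H556.A0 Fermat.Agent.LT.H129
open Fermat.Agent.LT.A2 Fermat.Agent.LT.A2.H142 Fermat.Agent.LT.A2.H254

/-! ## 1. The torus as a commutant -/

section Torus

variable {R : Type*} [CommRing R]

/-- A matrix is `torMat t n a b` iff it commutes with `Π = torMat t n 0 1`. -/
theorem torMat_iff_comm826 (t n : R) (X : Matrix (Fin 2) (Fin 2) R) :
    (∃ a b : R, X = torMat t n a b) ↔ X * torMat t n 0 1 = torMat t n 0 1 * X := by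
  constructor
  · rintro ⟨a, b, rfl⟩
    ext i j
    fin_cases i <;> fin_cases j <;>
      simp [torMat, Matrix.mul_apply, Fin.sum_univ_two] <;> ring
  · intro h
    refine ⟨X 0 0, X 1 0, ?_⟩
    have e00 := congrFun (congrFun h 0) 0
    have e10 := congrFun (congrFun h 1) 0
    simp [torMat, Matrix.mul_apply, Fin.sum_univ_two] at e00 e10
    ext i j
    fin_cases i <;> fin_cases j
    · simp [torMat]
    · simp [torMat, e00]
    · simp [torMat]
    · simp [torMat, e10]

/-- Entry form: a matrix is `torMat t n a b` iff two linear relations hold. -/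
theorem torMat_iff_entries826 (t n : R) (X : Matrix (Fin 2) (Fin 2) R) :
    (∃ a b : R, X = torMat t n a b) ↔ X 0 1 = -(n * X 1 0) ∧ X 1 1 = X 0 0 + t * X 1 0 := by
  constructor
  · rintro ⟨a, b, rfl⟩
    simp [torMat]
  · rintro ⟨h1, h2⟩
    refine ⟨X 0 0, X 1 0, ?_⟩
    ext i j
    fin_cases i <;> fin_cases j
    · simp [torMat]
    · simp [torMat, h1]
    · simp [torMat]
    · simp [torMat, h2]

end Torus

/-! ## 2. The torus in `GL₂(𝔸_K)` -/

section Adelic

variable {K : Type} [Field K] [NumberField K]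

theorem inTorus_iff826 (t n : K) (m : G K) :
    InTorus t n m ↔
      (m : Matrix (Fin 2) (Fin 2) (Adl K))
          * torMat (algebraMap K (Adl K) t) (algebraMap K (Adl K) n) 0 1
        = torMat (algebraMap K (Adl K) t) (algebraMap K (Adl K) n) 0 1
          * (m : Matrix (Fin 2) (Fin 2) (Adl K)) :=
  torMat_iff_comm826 _ _ _

theorem inTorus_mul826 {t n : K} {a b : G K} (ha : InTorus t n a) (hb : InTorus t n b) :
    InTorus t n (a * b) := by
  rw [inTorus_iff826] at ha hb ⊢
  rw [Units.val_mul, Matrix.mul_assoc, hb, ← Matrix.mul_assoc, ha, Matrix.mul_assoc]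

theorem inTorus_one826 (t n : K) : InTorus t n (1 : G K) := by
  rw [inTorus_iff826]
  simp

theorem inTorus_inv826 {t n : K} {a : G K} (ha : InTorus t n a) : InTorus t n a⁻¹ := by
  rw [inTorus_iff826] at ha ⊢
  have h1 : ((a⁻¹ : G K) : Matrix (Fin 2) (Fin 2) (Adl K)) * (a : Matrix (Fin 2) (Fin 2) (Adl K))
      = 1 := by
    rw [← Units.val_mul, inv_mul_cancel]; rfl
  have h2 : (a : Matrix (Fin 2) (Fin 2) (Adl K)) * ((a⁻¹ : G K) : Matrix (Fin 2) (Fin 2) (Adl K))
      = 1 := by
    rw [← Units.val_mul, mul_inv_cancel]; rfl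
  set P := torMat (algebraMap K (Adl K) t) (algebraMap K (Adl K) n) 0 1
  set A := (a : Matrix (Fin 2) (Fin 2) (Adl K))
  set B := ((a⁻¹ : G K) : Matrix (Fin 2) (Fin 2) (Adl K))
  calc B * P = B * P * (A * B) := by rw [h2, Matrix.mul_one]
    _ = B * (P * A) * B := by simp only [Matrix.mul_assoc]
    _ = B * (A * P) * B := by rw [ha]
    _ = (B * A) * P * B := by simp only [Matrix.mul_assoc]
    _ = P * B := by rw [h1, Matrix.one_mul]

theorem inTorus_pow826 {t n : K} {a : G K} (ha : InTorus t n a) (j : ℕ) :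
    InTorus t n (a ^ j) := by
  induction j with
  | zero => simpa using inTorus_one826 t n
  | succ j ih => rw [pow_succ]; exact inTorus_mul826 ih ha

/-- The torus is commutative. -/
theorem inTorus_comm826 {t n : K} {a b : G K} (ha : InTorus t n a) (hb : InTorus t n b) :
    a * b = b * a := by
  obtain ⟨a₁, a₂, ha⟩ := ha
  obtain ⟨b₁, b₂, hb⟩ := hb
  apply Units.ext
  rw [Units.val_mul, Units.val_mul]
  show (a : Matrix (Fin 2) (Fin 2) (Adl K)) * (b : Matrix (Fin 2) (Fin 2) (Adl K))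
    = (b : Matrix (Fin 2) (Fin 2) (Adl K)) * (a : Matrix (Fin 2) (Fin 2) (Adl K))
  rw [ha, hb]
  ext i j
  fin_cases i <;> fin_cases j <;>
    simp [torMat, Matrix.mul_apply, Fin.sum_univ_two] <;> ring

theorem adm_mul826 {t n : K} {g' m' m : G K} (hm : InTorus1 t n m) (h : Adm t n g' m') :
    Adm t n g' (m * m') :=
  ⟨inTorus_mul826 hm.1 h.1, by rw [map_mul, hm.2, one_mul, h.2]⟩

/-- `diag(1, a)`, `a` an idele. -/
def diagOne826 (a : (Adl K)ˣ) : G K :=
  ⟨!![1, 0; 0, (a : Adl K)], !![1, 0; 0, ((a⁻¹ : (Adl K)ˣ) : Adl K)],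
    by ext i j; fin_cases i <;> fin_cases j <;> simp [Matrix.mul_apply, Fin.sum_univ_two],
    by ext i j; fin_cases i <;> fin_cases j <;> simp [Matrix.mul_apply, Fin.sum_univ_two]⟩

theorem isDiagOneA_diagOne826 (a : (Adl K)ˣ) : WL.IsDiagOneA (diagOne826 a) a := rfl

theorem det_diagOne826 (a : (Adl K)ˣ) : Matrix.GeneralLinearGroup.det (diagOne826 a) = a := by
  apply Units.ext
  show (!![1, 0; 0, (a : Adl K)] : Matrix (Fin 2) (Fin 2) (Adl K)).det = a
  simp [Matrix.det_fin_two]

/-- `|χT| = 1` on the torus. -/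
theorem norm_chiT826 {t n : K} {χT : G K → ℂ} (h : IsTorusChar t n χT) {m : G K}
    (hm : InTorus t n m) : ‖χT m‖ = 1 := by
  obtain ⟨k, hk, hpow⟩ := h.fin_order
  have h1 : ‖χT m‖ ^ k = 1 := by rw [← norm_pow, hpow m hm, norm_one]
  exact (pow_eq_one_iff_of_nonneg (norm_nonneg _) (Nat.pos_iff_ne_zero.mp hk)).mp h1

/-- `T¹(𝔸_K)` is closed. -/
theorem isClosed_T1set826 [T2Space (Adl K)] (t n : K) : IsClosed (T1set254 t n) := by
  have hval : Continuous fun m : G K => (m : Matrix (Fin 2) (Fin 2) (Adl K)) :=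
    Units.continuous_val
  have hset : T1set254 t n
      = {m : G K | (m : Matrix (Fin 2) (Fin 2) (Adl K)) 0 1
            = -(algebraMap K (Adl K) n * (m : Matrix (Fin 2) (Fin 2) (Adl K)) 1 0)}
        ∩ {m : G K | (m : Matrix (Fin 2) (Fin 2) (Adl K)) 1 1
            = (m : Matrix (Fin 2) (Fin 2) (Adl K)) 0 0
              + algebraMap K (Adl K) t * (m : Matrix (Fin 2) (Fin 2) (Adl K)) 1 0}
        ∩ {m : G K | (m : Matrix (Fin 2) (Fin 2) (Adl K)).det = 1} := by
    ext m
    simp only [T1set254, InTorus1, InTorus, Set.mem_ofPred_eq, Set.mem_inter_iff]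
    rw [torMat_iff_entries826]
    constructor
    · rintro ⟨⟨h1, h2⟩, h3⟩
      refine ⟨⟨h1, h2⟩, ?_⟩
      have := congrArg (fun u : (Adl K)ˣ => (u : Adl K)) h3
      simpa using this
    · rintro ⟨⟨h1, h2⟩, h3⟩
      refine ⟨⟨h1, h2⟩, ?_⟩
      apply Units.ext
      simpa using h3
  rw [hset]
  refine (IsClosed.inter ?_ ?_).inter ?_
  · exact isClosed_eq (hval.matrix_elem 0 1)
      ((continuous_const.mul (hval.matrix_elem 1 0)).neg)
  · exact isClosed_eq (hval.matrix_elem 1 1)
      ((hval.matrix_elem 0 0).add (continuous_const.mul (hval.matrix_elem 1 0)))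
  · exact isClosed_eq hval.matrix_det continuous_const

end Adelic

/-! ## 3. The leaf -/

/-- **A2.03.8.5.10 `IntegrableC254`**, VERBATIM. -/
theorem integrableC254_826 : IntegrableC254 := by
  intro K _ _ D η W v hctx ϖ hϖ μ μb hp g' m' hadm j
  letI : MeasurableSpace (G K) := borel (G K)
  haveI : BorelSpace (G K) := ⟨rfl⟩
  obtain ⟨⟨_, hT2, _⟩, _, _, _⟩ := hctx.t1.locComp
  haveI := hT2
  have htor := hctx.good.torus
  have hT1meas : MeasurableSet (T1set254 D.t D.n) := (isClosed_T1set826 D.t D.n).measurableSet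
  -- the element `μ' = (μ̄ʲ)⁻¹` of the torus
  obtain ⟨μ', hμ'⟩ : ∃ x : G K, x = (μb ^ j)⁻¹ := ⟨_, rfl⟩
  have hμ'inv : μ'⁻¹ = μb ^ j := by rw [hμ', inv_inv]
  have hμ'tor : InTorus D.t D.n μ' := by
    rw [hμ']; exact inTorus_inv826 (inTorus_pow826 hp.torb j)
  obtain ⟨d, hd⟩ : ∃ x : G K, x = diagOne826 (Matrix.GeneralLinearGroup.det μ') := ⟨_, rfl⟩
  have hdA : WL.IsDiagOneA d (Matrix.GeneralLinearGroup.det μ') := by
    rw [hd]; exact isDiagOneA_diagOne826 _
  have hadm2 : Adm D.t D.n (d * g') (μ' * m') :=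
    ⟨inTorus_mul826 hμ'tor hadm.1, by rw [map_mul, map_mul, hd, det_diagOne826, hadm.2]⟩
  obtain ⟨h, hh_int, hh_bd⟩ := hctx.std.orb_dom {(d * g', μ' * m')} isCompact_singleton
  obtain ⟨c, hc⟩ : ∃ x : ℝ, x = Real.sqrt (T1.adNorm K
      ((Matrix.GeneralLinearGroup.det μ' : (Adl K)ˣ) : Adl K)) := ⟨_, rfl⟩
  have hc0 : 0 ≤ c := by rw [hc]; exact Real.sqrt_nonneg _
  -- the pointwise identity
  have hform : ∀ m : G K, InTorus1 D.t D.n m →
      D.F g' (m * m') (actV (μb ^ j) (1, 0))
        = (c : ℂ) * D.F (d * g') (m * (μ' * m')) (1, 0) := by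
    intro m hm
    have hadm1 : Adm D.t D.n g' (m * m') := adm_mul826 hm hadm
    have h1 := hctx.std.torA μ' d hμ'tor hdA g' (m * m') (1, 0) hadm1
    have h2 : μ' * (m * m') = m * (μ' * m') := by
      rw [← mul_assoc, inTorus_comm826 hμ'tor hm.1, mul_assoc]
    rw [h2, hμ'inv, ← hc] at h1
    exact h1.symm
  -- continuity on `T¹`
  have hcont : ContinuousOn (orbFn254 D g' m' (actV (μb ^ j) (1, 0))) (T1set254 D.t D.n) := by
    have hφ : Continuous fun m : G K => ((g', m * m') : G K × G K) :=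
      continuous_const.prodMk (continuous_id.mul continuous_const)
    have h1 : ContinuousOn (fun m : G K => D.F g' (m * m') (actV (μb ^ j) (1, 0)))
        (T1set254 D.t D.n) :=
      (hctx.good.regular.cont_pair (actV (μb ^ j) (1, 0))).comp hφ.continuousOn
        (fun m hm => adm_mul826 hm hadm)
    have hψ : Continuous fun m : G K => m * m' := continuous_id.mul continuous_const
    have h2 : ContinuousOn (fun m : G K => D.χT (m * m')) (T1set254 D.t D.n) :=
      htor.cont.comp hψ.continuousOn (fun m hm => inTorus_mul826 hm.1 hadm.1)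
    exact h1.mul h2
  -- domination
  show Integrable (orbFn254 D g' m' (actV (μb ^ j) (1, 0)))
    (D.μT.restrict (T1set254 D.t D.n))
  have hh_int' : Integrable (fun m => c * h m) (D.μT.restrict (T1set254 D.t D.n)) :=
    Integrable.const_mul hh_int c
  refine Integrable.mono' hh_int' (hcont.aestronglyMeasurable hT1meas) ?_
  refine (ae_restrict_iff' hT1meas).mpr (Filter.Eventually.of_forall fun m hm => ?_)
  have hm1 : InTorus1 D.t D.n m := hm
  have hb := hh_bd (d * g', μ' * m') (Set.mem_singleton _) hadm2 m hm1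
  show ‖D.F g' (m * m') (actV (μb ^ j) (1, 0)) * D.χT (m * m')‖ ≤ c * h m
  rw [norm_mul, norm_chiT826 htor (inTorus_mul826 hm1.1 hadm.1), mul_one, hform m hm1, norm_mul,
    Complex.norm_real, Real.norm_of_nonneg hc0]
  exact mul_le_mul_of_nonneg_left hb hc0

end Fermat.Agent.LT.A2.H826

end
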